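/-
P-ORD (S33), block (G-B), row ORD-GB-N4 N-BASIS (helper44, second seat): the DIMENSION CORE.

Two function fields `F₁`, `F₂` over `K` with Riemann packages (genera `g₁`, `g₂`), finitely many
"nodes" `ν : ι` with branches `n₁ ν` (a place of `F₁`, injective in `ν`) and `n₂ ν` (a place of
`F₂`), and places `Q₁`, `Q₂` which are not branches.  For `n` large the space of GLUED pairs
`{(x, y) ∈ L(n Q₁) × L(n Q₂) | x(n₁ ν) = y(n₂ ν) for all ν}` has dimension
`2 n + 2 - g₁ - g₂ - #ι`; we export a basis in elementary terms.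

Prelude + `H44.MWDiv.ValAt` + `H27.ESD.Interfaces` only.
-/
import Fermat.Agent.H44.MWDiv.ValAt
import Fermat.Agent.H27.ESD.Interfaces

set_option autoImplicit false
set_option linter.style.haveILetI false
set_option linter.unusedSectionVars false

noncomputable section

open AlgebraicCurve WithZero

namespace Fermat.Agent.H44.ORD

open Fermat.Agent.H44.FF Fermat.Agent.H44.MWDiv Fermat.Agent.H27.ESD

variable {K F : Type} [Field K] [Field F] [Algebra K F]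

/-- elements of `L(n Q)` are integral at every place `v ≠ Q` -/
theorem gd_adic_le_one {Q v : Place K F} (hv : v ≠ Q) {n : ℤ} {x : F}
    (hx : x ∈ riemannRochSpace (Finsupp.single Q n)) : v.adicValuation x ≤ 1 := by
  classical
  have h := hx v
  rw [Finsupp.single_apply, if_neg (Ne.symm hv), exp_zero] at h
  exact h

/-- the evaluation map `L(n Q) → K^ι` at places `nd ν ≠ Q` of degree one -/
def gdEval (hdeg : ∀ v : Place K F, v.deg = 1) {ι : Type} (nd : ι → Place K F)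
    (Q : Place K F) (hQ : Q ∉ Set.range nd) (n : ℤ) :
    riemannRochSpace (Finsupp.single Q n) →ₗ[K] (ι → K) where
  toFun x ν := valAt (nd ν) (x : F)
  map_add' x y := by
    funext ν
    exact valAt_add (nd ν) (hdeg _) (gd_adic_le_one (fun h => hQ ⟨ν, h⟩) x.2)
      (gd_adic_le_one (fun h => hQ ⟨ν, h⟩) y.2)
  map_smul' a x := by
    funext ν
    exact valAt_smul (nd ν) (hdeg _) a (gd_adic_le_one (fun h => hQ ⟨ν, h⟩) x.2)

theorem gdEval_apply (hdeg : ∀ v : Place K F, v.deg = 1) {ι : Type} (nd : ι → Place K F)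
    (Q : Place K F) (hQ : Q ∉ Set.range nd) (n : ℤ)
    (x : riemannRochSpace (Finsupp.single Q n)) (ν : ι) :
    gdEval hdeg nd Q hQ n x ν = valAt (nd ν) (x : F) := rfl

/-- the divisor `n Q - ∑ ν, nd ν` -/
def gdDiv {ι : Type} [Fintype ι] (nd : ι → Place K F) (Q : Place K F) (n : ℤ) : Divisor K F :=
  Finsupp.single Q n - ∑ ν, Finsupp.single (nd ν) (1 : ℤ)

theorem gdDiv_degree (hdeg : ∀ v : Place K F, v.deg = 1) {ι : Type} [Fintype ι]
    (nd : ι → Place K F) (Q : Place K F) (n : ℤ) :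
    Divisor.degree (gdDiv nd Q n) = n - (Fintype.card ι : ℤ) := by
  unfold gdDiv
  rw [map_sub, map_sum, Divisor.degree_single, hdeg Q]
  simp only [Divisor.degree_single, hdeg, Nat.cast_one, mul_one, Finset.sum_const,
    Finset.card_univ, nsmul_eq_mul]

theorem gdDiv_apply_node {ι : Type} [Fintype ι] (nd : ι → Place K F)
    (hinj : Function.Injective nd) (Q : Place K F) (hQ : Q ∉ Set.range nd) (n : ℤ) (μ : ι) :
    gdDiv nd Q n (nd μ) = -1 := by
  classical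
  unfold gdDiv
  rw [Finsupp.sub_apply, Finsupp.finsetSum_apply, Finsupp.single_apply,
    if_neg (fun h => hQ ⟨μ, h.symm⟩)]
  have h1 : ∀ ν, (Finsupp.single (nd ν) (1 : ℤ)) (nd μ) = if ν = μ then 1 else 0 := by
    intro ν
    rw [Finsupp.single_apply]
    by_cases h : ν = μ
    · rw [if_pos h, if_pos (congrArg nd h)]
    · rw [if_neg h, if_neg (fun h' => h (hinj h'))]
  rw [Finset.sum_congr rfl (fun ν _ => h1 ν), Finset.sum_ite_eq' Finset.univ μ]
  simp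

theorem gdDiv_apply_other {ι : Type} [Fintype ι] (nd : ι → Place K F)
    (Q : Place K F) (n : ℤ) (v : Place K F) (hv : v ∉ Set.range nd) :
    gdDiv nd Q n v = Finsupp.single Q n v := by
  classical
  unfold gdDiv
  rw [Finsupp.sub_apply, Finsupp.finsetSum_apply]
  have h1 : ∀ ν, (Finsupp.single (nd ν) (1 : ℤ)) v = 0 := by
    intro ν
    rw [Finsupp.single_apply, if_neg (fun h => hv ⟨ν, h⟩)]
  rw [Finset.sum_congr rfl (fun ν _ => h1 ν), Finset.sum_const_zero, sub_zero]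

/-- the kernel of the evaluation map lies in `L(n Q - ∑ nd ν)` -/
theorem gd_ker_mem (hdeg : ∀ v : Place K F, v.deg = 1) {ι : Type} [Fintype ι]
    (nd : ι → Place K F) (hinj : Function.Injective nd) (Q : Place K F)
    (hQ : Q ∉ Set.range nd) (n : ℤ) (x : riemannRochSpace (Finsupp.single Q n))
    (hx : gdEval hdeg nd Q hQ n x = 0) : (x : F) ∈ riemannRochSpace (gdDiv nd Q n) := by
  intro v
  by_cases hv : v ∈ Set.range nd
  · obtain ⟨μ, rfl⟩ := hv
    rw [gdDiv_apply_node nd hinj Q hQ n μ]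
    have h0 : valAt (nd μ) (x : F) = 0 := by
      have := congrFun hx μ
      rwa [gdEval_apply] at this
    have h1 : (nd μ).adicValuation (x : F) < 1 :=
      (valAt_eq_zero_iff (nd μ) (hdeg _) (gd_adic_le_one (fun h => hQ ⟨μ, h⟩) x.2)).mp h0
    rw [(nd μ).adicValuation_le_exp_iff]
    rcases (Fermat.Agent.H23.adicValuation_lt_one_iff (nd μ)).mp h1 with h2 | h2
    · exact Or.inl h2
    · exact Or.inr (by omega)
  · rw [gdDiv_apply_other nd Q n v hv]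
    exact x.2 v

/-- for `n ≥ c + #ι` (`c` the bound of `eq_of_large`) the evaluation map is onto -/
theorem gdEval_surjective {g : ℕ} (hR : RiemannPackage K F g) {ι : Type} [Fintype ι]
    (nd : ι → Place K F) (hinj : Function.Injective nd) (Q : Place K F)
    (hQ : Q ∉ Set.range nd) (c : ℤ)
    (hc : ∀ D : Divisor K F, c ≤ Divisor.degree D →
      (Module.finrank K (riemannRochSpace D) : ℤ) = Divisor.degree D + 1 - (g : ℤ))
    (n : ℤ) (hn : c + (Fintype.card ι : ℤ) ≤ n) :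
    Function.Surjective (gdEval hR.deg_one nd Q hQ n) := by
  haveI : Module.Finite K (riemannRochSpace (Finsupp.single Q n)) := hR.finite _
  haveI : Module.Finite K (riemannRochSpace (gdDiv nd Q n)) := hR.finite _
  set e := gdEval hR.deg_one nd Q hQ n with he
  let f : LinearMap.ker e →ₗ[K] riemannRochSpace (gdDiv nd Q n) :=
    ((Submodule.subtype _).comp (Submodule.subtype (LinearMap.ker e))).codRestrict _
      (fun x => gd_ker_mem hR.deg_one nd hinj Q hQ n x.1 (LinearMap.mem_ker.mp x.2))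
  have hf : Function.Injective f := by
    intro x y hxy
    have := congrArg (fun z : riemannRochSpace (gdDiv nd Q n) => (z : F)) hxy
    exact Subtype.ext (Subtype.ext this)
  have h1 : Module.finrank K (LinearMap.ker e) ≤
      Module.finrank K (riemannRochSpace (gdDiv nd Q n)) :=
    LinearMap.finrank_le_finrank_of_injective hf
  have h2 := LinearMap.finrank_range_add_finrank_ker e
  have hcard : (0 : ℤ) ≤ (Fintype.card ι : ℤ) := Int.natCast_nonneg _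
  have hd1 : Divisor.degree (Finsupp.single Q n) = n := by
    rw [Divisor.degree_single, hR.deg_one, Nat.cast_one, mul_one]
  have h3 := hc (Finsupp.single Q n) (by rw [hd1]; omega)
  have h4 := hc (gdDiv nd Q n) (by rw [gdDiv_degree hR.deg_one]; omega)
  rw [hd1] at h3
  rw [gdDiv_degree hR.deg_one] at h4
  have h5 : Module.finrank K (LinearMap.range e) ≤ Module.finrank K (ι → K) :=
    Submodule.finrank_le _
  have h6 : Module.finrank K (LinearMap.range e) = Module.finrank K (ι → K) := by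
    rw [Module.finrank_fintype_fun_eq_card] at h5 ⊢
    zify at h1 h2 h5 ⊢
    omega
  exact LinearMap.range_eq_top.mp (Submodule.eq_top_of_finrank_eq h6)

/-- A finite-dimensional subspace `W` of `V₁ × V₂` (`V₁ ≤ F₁`, `V₂ ≤ F₂`) has a basis, written
in elementary terms. -/
theorem gd_basis_of_submodule {F₁ F₂ : Type} [AddCommGroup F₁] [AddCommGroup F₂] [Module K F₁]
    [Module K F₂] (V₁ : Submodule K F₁) (V₂ : Submodule K F₂) (W : Submodule K (V₁ × V₂))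
    [Module.Finite K W] :
    ∃ (bx : Fin (Module.finrank K W) → F₁) (bz : Fin (Module.finrank K W) → F₂),
      (∀ j, ∃ w ∈ W, bx j = ((w : V₁ × V₂).1 : F₁) ∧ bz j = ((w : V₁ × V₂).2 : F₂)) ∧
      (∀ c : Fin (Module.finrank K W) → K, ∑ j, c j • bx j = 0 → ∑ j, c j • bz j = 0 →
        c = 0) ∧
      ∀ w ∈ W, ∃ c : Fin (Module.finrank K W) → K,
        ((w : V₁ × V₂).1 : F₁) = ∑ j, c j • bx j ∧ ((w : V₁ × V₂).2 : F₂) = ∑ j, c j • bz j := by
  let p₁ : W →ₗ[K] F₁ := (V₁.subtype.comp (LinearMap.fst K V₁ V₂)).comp W.subtype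
  let p₂ : W →ₗ[K] F₂ := (V₂.subtype.comp (LinearMap.snd K V₁ V₂)).comp W.subtype
  have hp₁ : ∀ w : W, p₁ w = ((w : V₁ × V₂).1 : F₁) := fun _ => rfl
  have hp₂ : ∀ w : W, p₂ w = ((w : V₁ × V₂).2 : F₂) := fun _ => rfl
  have hpinj : ∀ w : W, p₁ w = 0 → p₂ w = 0 → w = 0 := by
    intro w hw1 hw2
    apply Subtype.ext
    apply Prod.ext
    · exact Subtype.ext hw1
    · exact Subtype.ext hw2
  let b := Module.finBasis K W
  refine ⟨fun j => p₁ (b j), fun j => p₂ (b j), fun j => ⟨(b j : V₁ × V₂), (b j).2, rfl, rfl⟩,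
    ?_, ?_⟩
  · intro c hc1 hc2
    have e1 : p₁ (∑ j, c j • b j) = 0 := by
      rw [map_sum]
      simpa only [map_smul] using hc1
    have e2 : p₂ (∑ j, c j • b j) = 0 := by
      rw [map_sum]
      simpa only [map_smul] using hc2
    have e3 := hpinj _ e1 e2
    funext j
    exact (Fintype.linearIndependent_iff.mp b.linearIndependent) c e3 j
  · intro w hw
    have hsum : (⟨w, hw⟩ : W) = ∑ j, b.repr ⟨w, hw⟩ j • b j := (b.sum_repr ⟨w, hw⟩).symm
    refine ⟨fun j => b.repr ⟨w, hw⟩ j, ?_, ?_⟩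
    · have := congrArg p₁ hsum
      rw [map_sum] at this
      simp only [map_smul] at this
      exact this
    · have := congrArg p₂ hsum
      rw [map_sum] at this
      simp only [map_smul] at this
      exact this

section Two

variable {F₁ F₂ : Type} [Field F₁] [Field F₂] [Algebra K F₁] [Algebra K F₂]

/-- the difference of the two evaluation maps -/
def gdMap (hd₁ : ∀ v : Place K F₁, v.deg = 1) (hd₂ : ∀ v : Place K F₂, v.deg = 1) {ι : Type}
    (n₁ : ι → Place K F₁) (n₂ : ι → Place K F₂) (Q₁ : Place K F₁) (Q₂ : Place K F₂)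
    (hQ₁ : Q₁ ∉ Set.range n₁) (hQ₂ : Q₂ ∉ Set.range n₂) (n : ℤ) :
    (riemannRochSpace (Finsupp.single Q₁ n) × riemannRochSpace (Finsupp.single Q₂ n))
      →ₗ[K] (ι → K) :=
  (gdEval hd₁ n₁ Q₁ hQ₁ n).coprod (-(gdEval hd₂ n₂ Q₂ hQ₂ n))

theorem gdMap_apply (hd₁ : ∀ v : Place K F₁, v.deg = 1) (hd₂ : ∀ v : Place K F₂, v.deg = 1)
    {ι : Type} (n₁ : ι → Place K F₁) (n₂ : ι → Place K F₂) (Q₁ : Place K F₁)
    (Q₂ : Place K F₂) (hQ₁ : Q₁ ∉ Set.range n₁) (hQ₂ : Q₂ ∉ Set.range n₂) (n : ℤ)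
    (w : riemannRochSpace (Finsupp.single Q₁ n) × riemannRochSpace (Finsupp.single Q₂ n))
    (ν : ι) :
    gdMap hd₁ hd₂ n₁ n₂ Q₁ Q₂ hQ₁ hQ₂ n w ν =
      valAt (n₁ ν) (w.1 : F₁) - valAt (n₂ ν) (w.2 : F₂) := by
  unfold gdMap
  rw [LinearMap.coprod_apply, LinearMap.neg_apply, Pi.add_apply, Pi.neg_apply,
    gdEval_apply, gdEval_apply, sub_eq_add_neg]

/-- membership in the kernel = glued -/
theorem gd_mem_ker_iff (hd₁ : ∀ v : Place K F₁, v.deg = 1) (hd₂ : ∀ v : Place K F₂, v.deg = 1)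
    {ι : Type} (n₁ : ι → Place K F₁) (n₂ : ι → Place K F₂) (Q₁ : Place K F₁)
    (Q₂ : Place K F₂) (hQ₁ : Q₁ ∉ Set.range n₁) (hQ₂ : Q₂ ∉ Set.range n₂) (n : ℤ)
    (w : riemannRochSpace (Finsupp.single Q₁ n) × riemannRochSpace (Finsupp.single Q₂ n)) :
    w ∈ LinearMap.ker (gdMap hd₁ hd₂ n₁ n₂ Q₁ Q₂ hQ₁ hQ₂ n) ↔
      ∀ ν, ∃ κ : K, (n₁ ν).adicValuation ((w.1 : F₁) - algebraMap K F₁ κ) < 1 ∧
        (n₂ ν).adicValuation ((w.2 : F₂) - algebraMap K F₂ κ) < 1 := by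
  rw [LinearMap.mem_ker]
  constructor
  · intro h ν
    have h1 := congrFun h ν
    rw [gdMap_apply, Pi.zero_apply, sub_eq_zero] at h1
    refine ⟨valAt (n₁ ν) (w.1 : F₁), ?_, ?_⟩
    · exact valAt_spec (n₁ ν) (hd₁ _) (gd_adic_le_one (fun h => hQ₁ ⟨ν, h⟩) w.1.2)
    · rw [h1]
      exact valAt_spec (n₂ ν) (hd₂ _) (gd_adic_le_one (fun h => hQ₂ ⟨ν, h⟩) w.2.2)
  · intro h
    funext ν
    obtain ⟨κ, hκ1, hκ2⟩ := h ν
    rw [gdMap_apply, Pi.zero_apply, sub_eq_zero, valAt_eq (n₁ ν) hκ1, valAt_eq (n₂ ν) hκ2]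

/-- the dimension of the glued space -/
theorem gd_finrank_ker {g₁ g₂ : ℕ} (h₁ : RiemannPackage K F₁ g₁) (h₂ : RiemannPackage K F₂ g₂)
    {ι : Type} [Fintype ι] (n₁ : ι → Place K F₁) (n₂ : ι → Place K F₂)
    (hinj : Function.Injective n₁) (Q₁ : Place K F₁) (Q₂ : Place K F₂)
    (hQ₁ : Q₁ ∉ Set.range n₁) (hQ₂ : Q₂ ∉ Set.range n₂) (c₁ c₂ : ℤ)
    (hc₁ : ∀ D : Divisor K F₁, c₁ ≤ Divisor.degree D →
      (Module.finrank K (riemannRochSpace D) : ℤ) = Divisor.degree D + 1 - (g₁ : ℤ))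
    (hc₂ : ∀ D : Divisor K F₂, c₂ ≤ Divisor.degree D →
      (Module.finrank K (riemannRochSpace D) : ℤ) = Divisor.degree D + 1 - (g₂ : ℤ))
    (n : ℤ) (hn1 : c₁ + (Fintype.card ι : ℤ) ≤ n) (hn2 : c₂ ≤ n) :
    (Module.finrank K
      (LinearMap.ker (gdMap h₁.deg_one h₂.deg_one n₁ n₂ Q₁ Q₂ hQ₁ hQ₂ n)) : ℤ) =
      2 * n + 2 - (g₁ : ℤ) - (g₂ : ℤ) - (Fintype.card ι : ℤ) := by
  haveI : Module.Finite K (riemannRochSpace (Finsupp.single Q₁ n)) := h₁.finite _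
  haveI : Module.Finite K (riemannRochSpace (Finsupp.single Q₂ n)) := h₂.finite _
  have hcard : (0 : ℤ) ≤ (Fintype.card ι : ℤ) := Int.natCast_nonneg _
  have hsurj₁ : Function.Surjective (gdEval h₁.deg_one n₁ Q₁ hQ₁ n) :=
    gdEval_surjective h₁ n₁ hinj Q₁ hQ₁ c₁ hc₁ n hn1
  have hsurj : Function.Surjective (gdMap h₁.deg_one h₂.deg_one n₁ n₂ Q₁ Q₂ hQ₁ hQ₂ n) := by
    intro t
    obtain ⟨x, hx⟩ := hsurj₁ t
    refine ⟨(x, 0), ?_⟩
    unfold gdMap
    rw [LinearMap.coprod_apply, map_zero, add_zero, hx]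
  have hd₁ : Divisor.degree (Finsupp.single Q₁ n) = n := by
    rw [Divisor.degree_single, h₁.deg_one, Nat.cast_one, mul_one]
  have hd₂ : Divisor.degree (Finsupp.single Q₂ n) = n := by
    rw [Divisor.degree_single, h₂.deg_one, Nat.cast_one, mul_one]
  have hr₁ : (Module.finrank K (riemannRochSpace (Finsupp.single Q₁ n)) : ℤ) =
      n + 1 - (g₁ : ℤ) := by
    rw [hc₁ (Finsupp.single Q₁ n) (by rw [hd₁]; omega), hd₁]
  have hr₂ : (Module.finrank K (riemannRochSpace (Finsupp.single Q₂ n)) : ℤ) =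
      n + 1 - (g₂ : ℤ) := by
    rw [hc₂ (Finsupp.single Q₂ n) (by rw [hd₂]; omega), hd₂]
  have hrk := LinearMap.finrank_range_add_finrank_ker
    (gdMap h₁.deg_one h₂.deg_one n₁ n₂ Q₁ Q₂ hQ₁ hQ₂ n)
  rw [LinearMap.range_eq_top.mpr hsurj, finrank_top, Module.finrank_fintype_fun_eq_card,
    Module.finrank_prod] at hrk
  zify at hrk
  omega

/-- **The glued space has a basis of `2 n + 2 - g₁ - g₂ - #ι` elements** (`n` large). -/
theorem gd_glued_basis {g₁ g₂ : ℕ} (h₁ : RiemannPackage K F₁ g₁)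
    (h₂ : RiemannPackage K F₂ g₂) {ι : Type} [Finite ι] (n₁ : ι → Place K F₁)
    (n₂ : ι → Place K F₂) (hinj : Function.Injective n₁) (Q₁ : Place K F₁) (Q₂ : Place K F₂)
    (hQ₁ : Q₁ ∉ Set.range n₁) (hQ₂ : Q₂ ∉ Set.range n₂) :
    ∃ n₀ : ℕ, ∀ n : ℕ, n₀ ≤ n → ∃ (d : ℕ) (bx : Fin d → F₁) (bz : Fin d → F₂),
      (d : ℤ) = 2 * (n : ℤ) + 2 - (g₁ : ℤ) - (g₂ : ℤ) - (Nat.card ι : ℤ) ∧
      (∀ j, bx j ∈ riemannRochSpace (Finsupp.single Q₁ (n : ℤ))) ∧
      (∀ j, bz j ∈ riemannRochSpace (Finsupp.single Q₂ (n : ℤ))) ∧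
      (∀ j ν, ∃ κ : K, (n₁ ν).adicValuation (bx j - algebraMap K F₁ κ) < 1 ∧
        (n₂ ν).adicValuation (bz j - algebraMap K F₂ κ) < 1) ∧
      (∀ c : Fin d → K, ∑ j, c j • bx j = 0 → ∑ j, c j • bz j = 0 → c = 0) ∧
      ∀ x ∈ riemannRochSpace (Finsupp.single Q₁ (n : ℤ)),
        ∀ y ∈ riemannRochSpace (Finsupp.single Q₂ (n : ℤ)),
        (∀ ν, ∃ κ : K, (n₁ ν).adicValuation (x - algebraMap K F₁ κ) < 1 ∧
          (n₂ ν).adicValuation (y - algebraMap K F₂ κ) < 1) →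
        ∃ c : Fin d → K, x = ∑ j, c j • bx j ∧ y = ∑ j, c j • bz j := by
  cases nonempty_fintype ι
  obtain ⟨c₁, hc₁⟩ := h₁.eq_of_large
  obtain ⟨c₂, hc₂⟩ := h₂.eq_of_large
  refine ⟨max (c₁ + (Fintype.card ι : ℤ)).toNat c₂.toNat, fun n hn => ?_⟩
  have hn1 : c₁ + (Fintype.card ι : ℤ) ≤ (n : ℤ) := by
    have a1 : (c₁ + (Fintype.card ι : ℤ)).toNat ≤ n := le_trans (le_max_left _ _) hn
    have a2 := Int.self_le_toNat (c₁ + (Fintype.card ι : ℤ))
    exact a2.trans (by exact_mod_cast a1)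
  have hn2 : c₂ ≤ (n : ℤ) := by
    have a1 : c₂.toNat ≤ n := le_trans (le_max_right _ _) hn
    have a2 := Int.self_le_toNat c₂
    exact a2.trans (by exact_mod_cast a1)
  haveI : Module.Finite K (riemannRochSpace (Finsupp.single Q₁ (n : ℤ))) := h₁.finite _
  haveI : Module.Finite K (riemannRochSpace (Finsupp.single Q₂ (n : ℤ))) := h₂.finite _
  have hdim := gd_finrank_ker h₁ h₂ n₁ n₂ hinj Q₁ Q₂ hQ₁ hQ₂ c₁ c₂ hc₁ hc₂ (n : ℤ) hn1 hn2
  obtain ⟨bx, bz, hb1, hb2, hb3⟩ := gd_basis_of_submodule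
    (riemannRochSpace (Finsupp.single Q₁ (n : ℤ))) (riemannRochSpace (Finsupp.single Q₂ (n : ℤ)))
    (LinearMap.ker (gdMap h₁.deg_one h₂.deg_one n₁ n₂ Q₁ Q₂ hQ₁ hQ₂ (n : ℤ)))
  refine ⟨_, bx, bz, ?_, ?_, ?_, ?_, hb2, ?_⟩
  · rw [hdim, Nat.card_eq_fintype_card]
  · intro j
    obtain ⟨w, -, h1, -⟩ := hb1 j
    rw [h1]
    exact w.1.2
  · intro j
    obtain ⟨w, -, -, h2⟩ := hb1 j
    rw [h2]
    exact w.2.2
  · intro j ν
    obtain ⟨w, hw, h1, h2⟩ := hb1 j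
    rw [h1, h2]
    exact (gd_mem_ker_iff h₁.deg_one h₂.deg_one n₁ n₂ Q₁ Q₂ hQ₁ hQ₂ (n : ℤ) w).mp hw ν
  · intro x hx y hy hxy
    exact hb3 (⟨x, hx⟩, ⟨y, hy⟩)
      ((gd_mem_ker_iff h₁.deg_one h₂.deg_one n₁ n₂ Q₁ Q₂ hQ₁ hQ₂ (n : ℤ) _).mpr hxy)

end Two

end Fermat.Agent.H44.ORD
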