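/-
P-ORD (S33), block (G-B), row ORD-GB-N4 N-BASIS (helper44, second seat):
`liftBasisN : Fermat.Agent.H94.ORD.LiftBasisN`.

For `n` large the GLUED space `{(x, y) ∈ L(n Q_∞) × L(n Q_0) glued}` has dimension
`2 n + 2 - g_∞ - g_0 - #nodes = 2 n + 1 - g` (`Fermat.Agent.H44.ORD.gd_glued_basis`, Riemann on
both components + [NC]); a basis is lifted vector by vector with `NodalLift.lift`.
-/
import Fermat.Agent.H44.ORD.GluedDim
import Fermat.Agent.H94.ORD.JacGlue

set_option autoImplicit false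
set_option synthInstance.maxHeartbeats 400000
set_option linter.style.haveILetI false
set_option linter.unusedSectionVars false

noncomputable section

open AlgebraicCurve ModularCurve Fermat.Agent.H27.ESD

namespace Fermat.Agent.H44.ORD

open Fermat.Agent.H10.FF Fermat.Agent.H72.FF Fermat.Agent.H18.ORD Fermat.Agent.H92.ORD
  Fermat.Agent.H94.FF Fermat.Agent.H94.ORD

/-- membership in the maximal ideal of a place, in valuation form -/
theorem gd_mem_nonunits_iff {K F : Type} [Field K] [Field F] [Algebra K F] (v : Place K F)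
    (x : F) : x ∈ v.toValuationSubring.nonunits ↔ v.adicValuation x < 1 := by
  rw [Fermat.Agent.H18.ORD.nb_mem_nonunits_iff, Fermat.Agent.H23.adicValuation_lt_one_iff]
  constructor
  · rintro (h | h)
    · exact Or.inl h
    · exact Or.inr (by omega)
  · rintro (h | h)
    · exact Or.inl h
    · exact Or.inr (by omega)

/-- `IsGlued` in valuation form -/
theorem gd_isGlued_iff {N : ℕ} {A : ValuationSubring Qb} {Foo F0 : Type} [Field Foo] [Field F0]
    [Algebra (kRes A) Foo] [Algebra (kRes A) F0] {ι : Type} (G : NodalData N A Foo F0 ι)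
    (x : Foo) (y : F0) :
    IsGlued G x y ↔ ∀ ν, ∃ κ : kRes A,
      (G.nOo ν).adicValuation (x - algebraMap (kRes A) Foo κ) < 1 ∧
      (G.n0 ν).adicValuation (y - algebraMap (kRes A) F0 κ) < 1 := by
  unfold IsGlued
  refine forall_congr' fun ν => exists_congr fun κ => ?_
  rw [gd_mem_nonunits_iff, gd_mem_nonunits_iff]

/-- **[N-BASIS]** -/
theorem liftBasisN : Fermat.Agent.H94.ORD.LiftBasisN := by
  intro N p A Foo F0 _ _ _ _ ι G g hS hPkg Poo P0 Qoo Q0 hr hr0 hU hU0
  obtain ⟨gOo, gZ, hRoo, hR0, hnc⟩ := hPkg.nc g hS.pkgL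
  haveI : Finite ι := hPkg.fin
  obtain ⟨n₁, hn₁⟩ := hPkg.lift.lift Poo P0 Qoo Q0 hr hr0 hU hU0
  obtain ⟨n₂, hn₂⟩ := gd_glued_basis hRoo hR0 G.nOo G.n0 hS.rv.nOo_inj Qoo Q0
    (hS.rv.r_oo Poo Qoo hr) (hS.rv.r_zero P0 Q0 hr0)
  refine ⟨max n₁ n₂, fun n hn => ?_⟩
  obtain ⟨d, bx, bz, hd, hbx, hbz, hgl, hind, hspan⟩ := hn₂ n (le_trans (le_max_right _ _) hn)
  have hlift : ∀ j, ∃ u : nodalO G, IsUnrFn A N (u : FLb N) ∧
      (u : FLb N) ∈ riemannRochSpace
        (Finsupp.single Poo (n : ℤ) + Finsupp.single P0 (n : ℤ)) ∧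
      redOoO G u = bx j ∧ red0O G u = bz j := by
    intro j
    obtain ⟨u, h, h0, hu1, hu2, hu3, hu4⟩ := hn₁ n (le_trans (le_max_left _ _) hn)
      (bx j) (hbx j) (bz j) (hbz j) ((gd_isGlued_iff G _ _).mpr (hgl j))
    exact ⟨⟨u, h, h0⟩, hu1, hu2, hu3, hu4⟩
  choose m hm1 hm2 hm3 hm4 using hlift
  refine ⟨d, m, ?_, hm1, hm2, ?_, ?_⟩
  · rw [hd]
    omega
  · intro c h1 h2
    apply hind c
    · rw [← h1]
      exact Finset.sum_congr rfl fun j _ => by rw [hm3 j, Algebra.smul_def]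
    · rw [← h2]
      exact Finset.sum_congr rfl fun j _ => by rw [hm4 j, Algebra.smul_def]
  · intro x hx y hy hxy
    obtain ⟨c, hc1, hc2⟩ := hspan x hx y hy ((gd_isGlued_iff G x y).mp hxy)
    refine ⟨c, ?_, ?_⟩
    · rw [hc1]
      exact Finset.sum_congr rfl fun j _ => by rw [hm3 j, Algebra.smul_def]
    · rw [hc2]
      exact Finset.sum_congr rfl fun j _ => by rw [hm4 j, Algebra.smul_def]

end Fermat.Agent.H44.ORD
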