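/-
P-ORD (S33), block (G-B), row 1138 C-TAYLOR (helper44): `taylorRedC : TaylorRedC`.

Port of the P-FF Taylor lemma with reduction (`Fermat.Agent.H44.FF.taylorRed`) from the Gauss
ring to one component of a nodal reduction (helper18's `CompHyp`, helper94's `CompSetup`).
-/
import Fermat.Agent.H94.ORD.JacInterfaces
import Fermat.Agent.H44.FF.Taylor

set_option autoImplicit false
set_option synthInstance.maxHeartbeats 400000
set_option linter.style.haveILetI false
set_option linter.unusedSectionVars false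
set_option maxHeartbeats 1600000

noncomputable section

open AlgebraicCurve ModularCurve Fermat.Agent.H27.ESD

namespace Fermat.Agent.H44.ORD

open Fermat.Agent.H72.FF Fermat.Agent.H10.FF Fermat.Agent.H18.ORD Fermat.Agent.H94.ORD
  Fermat.Agent.H44.FF

variable {N p : ℕ} {A : ValuationSubring Qb} {Fk : Type} [Field Fk] [Algebra (kRes A) Fk]
  {X : Type} {V : Subring (FLb N)} {red : V →+* Fk} {r : Place Qb (FLb N) → X}
  {pt : Place (kRes A) Fk → X} {smooth : Place (kRes A) Fk → Prop}

/-- constants of `V` are integral -/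
theorem tc_const_mem_of_mem (hS : CompSetup N p A V red r pt smooth) {c : Qb}
    (h : algebraMap Qb (FLb N) c ∈ V) : c ∈ A := by
  by_contra hcn
  have hci : c⁻¹ ∈ A := (A.mem_or_inv_mem c).resolve_left hcn
  have hc0 : c ≠ 0 := fun h0 => hcn (h0 ▸ A.zero_mem)
  have hnu : ¬ IsUnit (⟨c⁻¹, hci⟩ : A) := by
    intro hu
    obtain ⟨u, hu⟩ := hu
    apply hcn
    have : ((↑u⁻¹ : A) : Qb) = c := by
      have h1 : (u : A) * (↑u⁻¹ : A) = 1 := Units.mul_inv u
      have h2 := congrArg (Subtype.val) h1
      rw [hu] at h2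
      have h3 : c⁻¹ * ((↑u⁻¹ : A) : Qb) = 1 := h2
      field_simp at h3
      exact h3
    rw [← this]
    exact (↑u⁻¹ : A).2
  set ci : V := ⟨algebraMap Qb (FLb N) (c⁻¹ : Qb), hS.comp.const_mem ⟨c⁻¹, hci⟩⟩ with hci'
  have hredci : red ci = 0 := by
    rw [hci', hS.comp.red_const ⟨c⁻¹, hci⟩, (hS.comp.hker _).mpr hnu, map_zero]
  have h1 : (⟨algebraMap Qb (FLb N) c, h⟩ : V) * ci = 1 := by
    apply Subtype.ext
    show algebraMap Qb (FLb N) c * algebraMap Qb (FLb N) (c⁻¹ : Qb) = 1
    rw [← map_mul, mul_inv_cancel₀ hc0, map_one]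
  have h2 := congrArg red h1
  rw [map_mul, hredci, mul_zero, map_one] at h2
  exact zero_ne_one h2

/-- values of functions of `V` without poles on a disc are integral -/
theorem tc_value_mem (hS : CompSetup N p A V red r pt smooth) (Q : Place (kRes A) Fk)
    (hQ : smooth Q) (y : V) (hnp : ∀ P1, r P1 = pt Q → 0 ≤ P1.ord (y : FLb N))
    (P1 : Place Qb (FLb N)) (hP1 : r P1 = pt Q) (b : Qb) (hb : HasValue P1 (y : FLb N) b) :
    b ∈ A := by
  rcases hb with hb | hb
  · exact tc_const_mem_of_mem hS (hb ▸ y.2)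
  · by_cases hyc : (y : FLb N) = algebraMap Qb (FLb N) b
    · exact tc_const_mem_of_mem hS (hyc ▸ y.2)
    · obtain ⟨hcA, -⟩ := hS.comp.value_lemma y Q hQ hnp P1 hP1 b hb hyc
      exact hcA

/-- **Division step.**  `y = y₀ + t * y'` with `y₀ ∈ R` the value at the centre and `y'` again
`I`-fixed, in `V`, without poles on the disc. -/
theorem tc_taylor_step (hS : CompSetup N p A V red r pt smooth) (Q : Place (kRes A) Fk)
    (hQ : smooth Q) (P : Place Qb (FLb N)) (t : V) (hc : IsUnrCoordC A N V red r pt Q P t)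
    (y : V) (hy : IsUnrFn A N (y : FLb N))
    (hnp : ∀ P1, r P1 = pt Q → 0 ≤ P1.ord (y : FLb N)) :
    ∃ (y₀ : A) (y' : V), ((y₀ : A) : Qb) ∈ unrInt A ∧ IsUnrFn A N (y' : FLb N) ∧
      (∀ P1, r P1 = pt Q → 0 ≤ P1.ord (y' : FLb N)) ∧
      (red y = algebraMap (kRes A) Fk (IsLocalRing.residue A y₀) + red t * red y') ∧
      ∀ P1, r P1 = pt Q → ∀ a b : Qb, HasValue P1 (t : FLb N) a → HasValue P1 (y : FLb N) b →
        (a = 0 → b = (y₀ : Qb)) ∧
          (a ≠ 0 → HasValue P1 (y' : FLb N) ((b - (y₀ : Qb)) / a)) := by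
  have H := hS.comp
  have hred0 : red t ≠ 0 := by
    intro h0
    have := hc.simple
    rw [h0, Place.ord_zero] at this
    exact zero_ne_one this
  have ht0 : (t : FLb N) ≠ 0 := nv_coe_ne_zero hred0
  obtain ⟨hordP, hordP1⟩ := H.ord_eq_of_coord Q hQ P hc.sp t hc.zero hc.simple hc.nopole
  -- the value at the centre
  obtain ⟨y₀, hy₀⟩ := tay_exists_value P (hS.degL P) (hnp P hc.sp)
  have hy₀' : HasValue P (y : FLb N) y₀ := hasValue_iff.mpr hy₀
  have hy₀A : y₀ ∈ A := tc_value_mem hS Q hQ y hnp P hc.sp y₀ hy₀'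
  have hy₀I : ∀ σ ∈ A.inertiaSubgroupIn ℚ, σ y₀ = y₀ := by
    intro σ hσ
    have h1 := hasValue_smul σ hy₀'
    rw [hc.unrP σ hσ, hy σ hσ] at h1
    exact tay_value_unique P (hasValue_iff.mp h1) hy₀
  -- the quotient
  set c₀ : V := ⟨algebraMap Qb (FLb N) y₀, H.const_mem ⟨y₀, hy₀A⟩⟩ with hc₀
  set ti : V := ⟨(t : FLb N)⁻¹, hS.inv t hred0⟩ with hti
  have hval : (((y - c₀) * ti : V) : FLb N) =
      ((y : FLb N) - algebraMap Qb (FLb N) y₀) * (t : FLb N)⁻¹ := rfl
  -- valuation of `y - y₀` on the disc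
  have hle : ∀ P1, r P1 = pt Q →
      P1.adicValuation ((y : FLb N) - algebraMap Qb (FLb N) y₀) ≤ 1 := by
    intro P1 hP1
    exact (Valuation.map_sub _ _ _).trans
      (max_le ((tay_nopole_iff P1).mp (hnp P1 hP1)) (tay_adic_const_le P1 y₀))
  refine ⟨⟨y₀, hy₀A⟩, (y - c₀) * ti, ⟨hy₀A, hy₀I⟩, ?_, ?_, ?_, ?_⟩
  · -- `I`-fixed
    intro σ hσ
    rw [hval, smul_mul', smul_sub, smul_inv'', hy σ hσ, hc.unrT σ hσ,
      SemilinearAut.smul_algebraMap]
    have : SemilinearAut.baseAut (galF N σ) y₀ = y₀ := hy₀I σ hσ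
    rw [this]
  · -- no poles on the disc
    intro P1 hP1
    rw [hval]
    by_cases h0 : (y : FLb N) - algebraMap Qb (FLb N) y₀ = 0
    · rw [h0, zero_mul, Place.ord_zero]
    rw [P1.ord_mul h0 (inv_ne_zero ht0), Place.ord_inv]
    by_cases hPP : P1 = P
    · rw [hPP, hordP]
      rcases hy₀' with h | h
      · exact absurd (sub_eq_zero.mpr h) h0
      · omega
    · rw [hordP1 P1 hP1 hPP]
      have := (tay_nopole_iff P1).mpr (hle P1 hP1)
      omega
  · -- the identity `y = y₀ + t * y'` and its reduction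
    have hid : y = c₀ + t * ((y - c₀) * ti) := by
      apply Subtype.ext
      show (y : FLb N) = algebraMap Qb (FLb N) y₀
        + (t : FLb N) * (((y : FLb N) - algebraMap Qb (FLb N) y₀) * (t : FLb N)⁻¹)
      field_simp
      ring
    have hred := congrArg red hid
    rw [map_add, map_mul] at hred
    have hc₀red : red c₀ = algebraMap (kRes A) Fk (IsLocalRing.residue A ⟨y₀, hy₀A⟩) :=
      H.red_const ⟨y₀, hy₀A⟩ _
    rw [hc₀red] at hred
    exact hred
  · intro P1 hP1 a b ha hb
    rw [hasValue_iff] at ha hb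
    constructor
    · rintro rfl
      rw [map_zero, sub_zero] at ha
      have hPP : P1 = P := by
        by_contra hne
        rw [tay_adic_eq_one P1 ht0 (hordP1 P1 hP1 hne)] at ha
        exact lt_irrefl _ ha
      rw [hPP] at hb
      exact tay_value_unique P hb hy₀
    · intro ha0
      rw [hasValue_iff, hval]
      have hva : P1.adicValuation (algebraMap Qb (FLb N) a) = 1 := tay_adic_const P1 ha0
      have hvt : P1.adicValuation (t : FLb N) = 1 := by
        have e : (t : FLb N) = ((t : FLb N) - algebraMap Qb (FLb N) a) +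
            algebraMap Qb (FLb N) a := by ring
        rw [e, Valuation.map_add_eq_of_lt_right _ (by rw [hva]; exact ha), hva]
      have hnum : ((y : FLb N) - algebraMap Qb (FLb N) y₀) * (t : FLb N)⁻¹ -
          algebraMap Qb (FLb N) ((b - y₀) / a) =
          (((y : FLb N) - algebraMap Qb (FLb N) b) -
            algebraMap Qb (FLb N) ((b - y₀) / a) * ((t : FLb N) - algebraMap Qb (FLb N) a)) *
            (t : FLb N)⁻¹ := by
        have hq : (b - y₀) / a * a = b - y₀ := div_mul_cancel₀ _ ha0
        have hamap : algebraMap Qb (FLb N) ((b - y₀) / a) * algebraMap Qb (FLb N) a =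
            algebraMap Qb (FLb N) b - algebraMap Qb (FLb N) y₀ := by
          rw [← RingHom.map_mul, hq, RingHom.map_sub]
        field_simp
        linear_combination (-1 : FLb N) * hamap
      rw [hnum, map_mul, map_inv₀, hvt, inv_one, mul_one]
      refine lt_of_le_of_lt (Valuation.map_sub _ _ _) (max_lt hb ?_)
      rw [map_mul]
      calc P1.adicValuation (algebraMap Qb (FLb N) ((b - y₀) / a)) *
            P1.adicValuation ((t : FLb N) - algebraMap Qb (FLb N) a)
          ≤ 1 * P1.adicValuation ((t : FLb N) - algebraMap Qb (FLb N) a) :=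
            mul_le_mul_left (tay_adic_const_le P1 _) _
        _ < 1 := by rw [one_mul]; exact ha

/-- **[C-TAYLOR]** (row 1138): the Taylor lemma with reduction on one component of a nodal
reduction. -/
theorem taylorRedC : TaylorRedC := by
  intro N p A Fk _ _ X V red r pt smooth hS Q hQ P t hc y hy hnp M
  have hT0 : red t ≠ 0 := by
    intro h0
    have := hc.simple
    rw [h0, Place.ord_zero] at this
    exact zero_ne_one this
  induction M generalizing y with
  | zero =>
    refine ⟨Fin.elim0, fun n => n.elim0, ?_, ?_⟩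
    · intro P1 hP1 a b ha hb
      refine ⟨b, tc_value_mem hS Q hQ y hnp P1 hP1 b hb, ?_⟩
      simp
    · rw [Finset.univ_eq_empty, Finset.sum_empty, sub_zero]
      by_cases h0 : red y = 0
      · exact Or.inl h0
      · right
        exact_mod_cast hS.comp.ord_red_nonneg y h0 Q hQ hnp
  | succ M ih =>
    obtain ⟨y₀, y', hy₀, hy', hnp', hred, hstep⟩ := tc_taylor_step hS Q hQ P t hc y hy hnp
    obtain ⟨c', hc', hval, hredc⟩ := ih y' hy' hnp'
    refine ⟨Fin.cons y₀ c', ?_, ?_, ?_⟩
    · intro n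
      refine Fin.cases ?_ (fun i => ?_) n
      · rw [Fin.cons_zero]
        exact hy₀
      · rw [Fin.cons_succ]
        exact hc' i
    · intro P1 hP1 a b ha hb
      obtain ⟨h0, h1⟩ := hstep P1 hP1 a b ha hb
      have hsum : ∑ n : Fin (M + 1), (((Fin.cons y₀ c' : Fin (M + 1) → A) n : A) : Qb)
          * a ^ (n : ℕ) = (y₀ : Qb) + a * ∑ n : Fin M, ((c' n : A) : Qb) * a ^ (n : ℕ) := by
        rw [Fin.sum_univ_succ, Fin.cons_zero, Fin.val_zero, pow_zero, mul_one, Finset.mul_sum]
        congr 1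
        refine Finset.sum_congr rfl fun i _ => ?_
        rw [Fin.cons_succ, Fin.val_succ, pow_succ]
        ring
      rw [hsum]
      by_cases ha0 : a = 0
      · refine ⟨0, A.zero_mem, ?_⟩
        rw [h0 ha0, ha0]
        simp
      · obtain ⟨e, he, heq⟩ := hval P1 hP1 a ((b - (y₀ : Qb)) / a) ha (h1 ha0)
        refine ⟨e, he, ?_⟩
        have h2 : b - (y₀ : Qb) - a * ∑ n : Fin M, ((c' n : A) : Qb) * a ^ (n : ℕ)
            = a * (a ^ M * e) := by
          rw [← heq]
          field_simp
        rw [pow_succ]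
        linear_combination h2
    · have hsum : ∑ n : Fin (M + 1), algebraMap (kRes A) Fk
            (IsLocalRing.residue A ((Fin.cons y₀ c' : Fin (M + 1) → A) n))
            * (red t) ^ (n : ℕ)
          = algebraMap (kRes A) Fk (IsLocalRing.residue A y₀)
            + red t * ∑ n : Fin M, algebraMap (kRes A) Fk
              (IsLocalRing.residue A (c' n)) * (red t) ^ (n : ℕ) := by
        rw [Fin.sum_univ_succ, Fin.cons_zero, Fin.val_zero, pow_zero, mul_one, Finset.mul_sum]
        congr 1
        refine Finset.sum_congr rfl fun i _ => ?_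
        rw [Fin.cons_succ, Fin.val_succ, pow_succ]
        ring
      have hfac : red y - ∑ n : Fin (M + 1), algebraMap (kRes A) Fk
            (IsLocalRing.residue A ((Fin.cons y₀ c' : Fin (M + 1) → A) n))
            * (red t) ^ (n : ℕ)
          = red t * (red y' - ∑ n : Fin M, algebraMap (kRes A) Fk
              (IsLocalRing.residue A (c' n)) * (red t) ^ (n : ℕ)) := by
        rw [hsum, hred]
        ring
      rw [hfac]
      by_cases hD0 : red y' - ∑ n : Fin M, algebraMap (kRes A) Fk
            (IsLocalRing.residue A (c' n)) * (red t) ^ (n : ℕ) = 0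
      · left
        rw [hD0, mul_zero]
      · right
        have hM : (M : ℤ) ≤ Q.ord (red y' - ∑ n : Fin M,
            algebraMap (kRes A) Fk (IsLocalRing.residue A (c' n))
              * (red t) ^ (n : ℕ)) := hredc.resolve_left hD0
        rw [Q.ord_mul hT0 hD0, hc.simple]
        push_cast
        omega

end Fermat.Agent.H44.ORD
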