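/-
P-ORD (S33), block (G-B), row 1139 C-TAPPROX (helper44, second seat):
`taylorApproxC : TaylorRedC → TaylorApproxC` and the unconditional form `taylorApproxC'`.

Port of `Fermat.Agent.H26.FF.taylorApprox` from the Gauss ring to one component of a nodal
reduction (`CompSetup`).
-/
import Fermat.Agent.H44.ORD.TaylorC
import Fermat.Agent.H26.FF.TaylorApprox

set_option autoImplicit false
set_option synthInstance.maxHeartbeats 400000
set_option maxHeartbeats 1000000
set_option linter.style.haveILetI false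
set_option linter.unusedSectionVars false

noncomputable section

open AlgebraicCurve ModularCurve Fermat.Agent.H27.ESD

namespace Fermat.Agent.H44.ORD

open Fermat.Agent.H72.FF Fermat.Agent.H10.FF Fermat.Agent.H18.ORD Fermat.Agent.H94.ORD
  Fermat.Agent.H94.FF Fermat.Agent.H26.FF

variable {N p : ℕ} {A : ValuationSubring Qb} {Fk : Type} [Field Fk] [Algebra (kRes A) Fk]
  {X : Type} {V : Subring (FLb N)} {red : V →+* Fk} {r : Place Qb (FLb N) → X}
  {pt : Place (kRes A) Fk → X} {smooth : Place (kRes A) Fk → Prop}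

/-- An element of `V` which is a constant `a ∈ A` reduces to the constant `a mod m_A`. -/
theorem tc_red_eq_of_coe_eq_algebraMap (hS : CompSetup N p A V red r pt smooth) (u : V)
    {a : Qb} (haA : a ∈ A) (h : (u : FLb N) = algebraMap Qb (FLb N) a) :
    red u = algebraMap (kRes A) Fk (IsLocalRing.residue A ⟨a, haA⟩) := by
  have hu : u = ⟨algebraMap Qb (FLb N) a, hS.comp.const_mem ⟨a, haA⟩⟩ := Subtype.ext h
  rw [hu, hS.comp.red_const ⟨a, haA⟩]

/-- The value of an unramified coordinate of the disc of the smooth point `Q` at a point of the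
disc lies in the maximal ideal of `A`. -/
theorem tc_coord_value_mem_nonunits (hS : CompSetup N p A V red r pt smooth)
    {Q : Place (kRes A) Fk} (hQ : smooth Q) {P : Place Qb (FLb N)} {t : V}
    (hc : IsUnrCoordC A N V red r pt Q P t) {P1 : Place Qb (FLb N)} (hP1 : r P1 = pt Q)
    {a : Qb} (haA : a ∈ A) (hv : HasValue P1 (t : FLb N) a) : a ∈ A.nonunits := by
  have hzero : IsLocalRing.residue A ⟨a, haA⟩ = 0 := by
    by_cases hconst : (t : FLb N) = algebraMap Qb (FLb N) a
    · exact const_eq_zero_of_ord_eq_one Q hc.simple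
        (Or.inl (tc_red_eq_of_coe_eq_algebraMap hS t haA hconst))
    · have hord : 1 ≤ P1.ord ((t : FLb N) - algebraMap Qb (FLb N) a) := by
        rcases hv with h | h
        · exact absurd h hconst
        · exact h
      obtain ⟨hcA, hred⟩ := hS.comp.value_lemma t Q hQ hc.nopole P1 hP1 a hord hconst
      exact const_eq_zero_of_ord_eq_one Q hc.simple hred
  rw [ValuationSubring.mem_nonunits_iff_exists_mem_maximalIdeal]
  exact ⟨haA, (IsLocalRing.residue_eq_zero_iff _).mp hzero⟩

/-- **[C-TAPPROX]** (row 1139). -/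
theorem taylorApproxC (hT : TaylorRedC) : TaylorApproxC := by
  intro N p A Fk _ _ X V red r pt smooth hS Q hQ P t hc y hy hnp S _ n x hx pts τ v hpt hτv hyv hτ
  have hxA : ∀ s i, x s i ∈ A := fun s i => ValuationSubring.nonunits_subset (hx s i)
  have hτA : ∀ s, τ s ∈ A := fun s => isApprox_mem hxA hτ s
  have hτm : ∀ s, τ s ∈ A.nonunits :=
    fun s => tc_coord_value_mem_nonunits hS hQ hc (hpt s) (hτA s) (hτv s)
  apply isApprox_of_limit
  intro M
  obtain ⟨M1, hM1⟩ := exists_pow_eq_prime_pow_mul hS.prime hS.liesOver τ hτm M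
  obtain ⟨c, hcR, hTay, -⟩ := hT N p A Fk X V red r pt smooth hS Q hQ P t hc y hy hnp M1
  refine ⟨fun s => ∑ k : Fin M1, ((c k : A) : Qb) * τ s ^ (k : ℕ), ?_, fun s => ?_⟩
  · exact isApprox_sum_univ fun k =>
      isApprox_mul hxA (isApprox_const (hcR k)) (isApprox_pow hxA hτ k)
  · obtain ⟨e, he, h1⟩ := hTay (pts s) (hpt s) (τ s) (v s) (hτv s) (hyv s)
    obtain ⟨e', he', h2⟩ := hM1 s
    exact ⟨e' * e, mul_mem he' he, by rw [h1, h2]; ring⟩

/-- **[C-TAPPROX]**, unconditional. -/
theorem taylorApproxC' : TaylorApproxC := taylorApproxC taylorRedC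

end Fermat.Agent.H44.ORD
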